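import Fermat.Agent.S18.Mod.H216.IntE
import Fermat.Agent.S18.H425.GoodModelInv
import Fermat.Agent.S37.H280.IntQ
import Fermat.Agent.S37.Red.H759.Passage

/-!
# S37 / board v3, leaf D3 (helper697): the core of `LiftLeaf`

For a number field `E ⊆ ℚ̄` and the concrete model `(Ec, Fc, Rc, Vc)` of row S18 at level `M`:

* `Red M A E f c` : the reduction relation between `Vc M A E ⊆ F_M` and `k((q))`
  (`f = U₁/U₂`, `c = Ū₁/Ū₂`); it is functional, a ring homomorphism, compatible with inverses,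
  and surjective onto `κ_E(j̄(q^d) : d ∣ M)` (`exists_red_of_mem_closure`);
* `lift_core` : for a good model with coordinate `y = toOm Y` (`Y` an integral series) and the
  normality statement (D2): `H759.LiftAtLevel A M E y Ȳ`.
-/

set_option autoImplicit false
set_option synthInstance.maxHeartbeats 400000
set_option maxHeartbeats 1600000
set_option linter.unusedSectionVars false
set_option linter.unusedVariables false
set_option linter.style.haveILetI false

noncomputable section

namespace Fermat.Agent.S37.H697.Lift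

open ModularCurve AlgebraicCurve HahnSeries IsLocalRing Polynomial
open Fermat.Agent.S18 Fermat.Agent.S18.Mod Fermat.Agent.S18.Mod.H216 Fermat.Agent.S37.Red

variable (M : ℕ) (A : ValuationSubring Qb) (E : IntermediateField ℚ Qb)

/-- the residue field of `A` -/
abbrev kA : Type := ResidueField A

/-- The reduction relation: `f = U₁/U₂`, `c = Ū₁/Ū₂` with `E`-rational integral series. -/
def Red (f : Om M) (c : LaurentSeries (kA A)) : Prop :=
  ∃ U₁ U₂ : ↥(intE M A E), redE M A E U₂ ≠ 0 ∧ f * toOm M A E U₂ = toOm M A E U₁ ∧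
    c * redE M A E U₂ = redE M A E U₁

variable {M A E}

theorem Red.mem_Vc {f : Om M} {c : LaurentSeries (kA A)} (h : Red M A E f c) :
    f ∈ Vc M A E := by
  obtain ⟨U₁, U₂, hne, hf, -⟩ := h
  exact (mem_Vc_iff' M A E).mpr ⟨U₁, U₂, hne, hf⟩

theorem exists_red_of_mem_Vc {f : Om M} (hf : f ∈ Vc M A E) : ∃ c, Red M A E f c := by
  obtain ⟨U₁, U₂, hne, hf⟩ := (mem_Vc_iff' M A E).mp hf
  exact ⟨redE M A E U₁ * (redE M A E U₂)⁻¹, U₁, U₂, hne, hf, by
    rw [mul_assoc, inv_mul_cancel₀ hne, mul_one]⟩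

theorem Red.unique {f : Om M} {c c' : LaurentSeries (kA A)} (h : Red M A E f c)
    (h' : Red M A E f c') : c = c' := by
  obtain ⟨U₁, U₂, hne, hf, hc⟩ := h
  obtain ⟨W₁, W₂, kne, kf, kc⟩ := h'
  have h1 : toOm M A E (U₁ * W₂) = toOm M A E (W₁ * U₂) := by
    rw [map_mul, map_mul, ← hf, ← kf]
    ring
  have h2 : U₁ * W₂ = W₁ * U₂ := toOm_injective M A E h1
  have h3 : redE M A E U₁ * redE M A E W₂ = redE M A E W₁ * redE M A E U₂ := by
    rw [← map_mul, ← map_mul, h2]
  have h4 : (c - c') * (redE M A E U₂ * redE M A E W₂) = 0 := by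
    have e1 : c * (redE M A E U₂ * redE M A E W₂) = redE M A E U₁ * redE M A E W₂ := by
      rw [← mul_assoc, hc]
    have e2 : c' * (redE M A E U₂ * redE M A E W₂) = redE M A E W₁ * redE M A E U₂ := by
      rw [mul_comm (redE M A E U₂), ← mul_assoc, kc]
    rw [sub_mul, e1, e2, h3, sub_self]
  rcases mul_eq_zero.mp h4 with h | h
  · exact sub_eq_zero.mp h
  · exact absurd h (mul_ne_zero hne kne)

theorem Red.ofInt (U : ↥(intE M A E)) : Red M A E (toOm M A E U) (redE M A E U) :=
  ⟨U, 1, by rw [map_one]; exact one_ne_zero, by rw [map_one, mul_one], by rw [map_one, mul_one]⟩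

theorem Red.zero : Red M A E (0 : Om M) 0 := by
  simpa using Red.ofInt (M := M) (A := A) (E := E) 0

theorem Red.one : Red M A E (1 : Om M) 1 := by
  simpa using Red.ofInt (M := M) (A := A) (E := E) 1

theorem Red.add {f g : Om M} {c d : LaurentSeries (kA A)} (h : Red M A E f c)
    (h' : Red M A E g d) : Red M A E (f + g) (c + d) := by
  obtain ⟨U₁, U₂, hne, hf, hc⟩ := h
  obtain ⟨W₁, W₂, kne, kf, kc⟩ := h'
  refine ⟨U₁ * W₂ + W₁ * U₂, U₂ * W₂, ?_, ?_, ?_⟩
  · rw [map_mul]
    exact mul_ne_zero hne kne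
  · rw [map_add, map_mul, map_mul, map_mul, ← hf, ← kf]
    ring
  · rw [map_add, map_mul, map_mul, map_mul, ← hc, ← kc]
    ring

theorem Red.mul {f g : Om M} {c d : LaurentSeries (kA A)} (h : Red M A E f c)
    (h' : Red M A E g d) : Red M A E (f * g) (c * d) := by
  obtain ⟨U₁, U₂, hne, hf, hc⟩ := h
  obtain ⟨W₁, W₂, kne, kf, kc⟩ := h'
  refine ⟨U₁ * W₁, U₂ * W₂, ?_, ?_, ?_⟩
  · rw [map_mul]
    exact mul_ne_zero hne kne
  · rw [map_mul, map_mul, ← hf, ← kf]
    ring
  · rw [map_mul, map_mul, ← hc, ← kc]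
    ring

theorem Red.neg {f : Om M} {c : LaurentSeries (kA A)} (h : Red M A E f c) :
    Red M A E (-f) (-c) := by
  obtain ⟨U₁, U₂, hne, hf, hc⟩ := h
  refine ⟨-U₁, U₂, hne, ?_, ?_⟩
  · rw [map_neg, ← hf]
    ring
  · rw [map_neg, ← hc]
    ring

theorem Red.sub {f g : Om M} {c d : LaurentSeries (kA A)} (h : Red M A E f c)
    (h' : Red M A E g d) : Red M A E (f - g) (c - d) := by
  rw [sub_eq_add_neg, sub_eq_add_neg]
  exact h.add h'.neg

theorem Red.inv {f : Om M} {c : LaurentSeries (kA A)} (h : Red M A E f c) (hc0 : c ≠ 0) :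
    Red M A E f⁻¹ c⁻¹ := by
  obtain ⟨U₁, U₂, hne, hf, hc⟩ := h
  have h1 : redE M A E U₁ ≠ 0 := by
    rw [← hc]
    exact mul_ne_zero hc0 hne
  have h1' : toOm M A E U₁ ≠ 0 := toOm_ne_zero_of_redE M A E h1
  have h2' : toOm M A E U₂ ≠ 0 := toOm_ne_zero_of_redE M A E hne
  have hf0 : f ≠ 0 := by
    rintro rfl
    rw [zero_mul] at hf
    exact h1' hf.symm
  refine ⟨U₂, U₁, h1, ?_, ?_⟩
  · rw [← hf]
    field_simp
  · rw [← hc]
    field_simp

/-- the ring of compatible pairs -/
def redRing (M : ℕ) (A : ValuationSubring Qb) (E : IntermediateField ℚ Qb) :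
    Subring (Om M × LaurentSeries (kA A)) where
  carrier := {p | Red M A E p.1 p.2}
  zero_mem' := Red.zero
  one_mem' := Red.one
  add_mem' := fun h h' => h.add h'
  mul_mem' := fun h h' => h.mul h'
  neg_mem' := fun h => h.neg

theorem mem_redRing {p : Om M × LaurentSeries (kA A)} :
    p ∈ redRing M A E ↔ Red M A E p.1 p.2 := Iff.rfl


/-! ### Generators -/

theorem Red.const {a : Qb} (haA : a ∈ A) (haE : a ∈ E) :
    Red M A E (algebraMap Qb (Om M) a)
      (algebraMap (kA A) (LaurentSeries (kA A)) (residue A ⟨a, haA⟩)) := by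
  have h := Red.ofInt (cInt M A E haA haE)
  rw [toOm_cInt, redE_cInt] at h
  rw [algebraMap_laurentSeries_eq_single, ← HahnSeries.C_apply]
  exact h

theorem jqNModC_mem_intE (d : ℕ) [NeZero d] (hd : d ∣ M) :
    (jqNModC ↥A d : LaurentSeries ↥A) ∈ intE M A E := by
  rw [mem_intE]
  refine ⟨fun n => ?_, jd M d hd, Subfield.subset_closure (Or.inr ⟨d, inferInstance, hd, rfl⟩), ?_⟩
  · have h1 : jqNModC ↥A d = coeffMap (Int.castRingHom ↥A) (jqNModC ℤ d) :=
      (coeffMap_jqNModC (Int.castRingHom ↥A) d).symm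
    rw [h1, coeffMap_coeff]
    simp only [eq_intCast, SubringClass.coe_intCast]
    exact intCast_mem E _
  · show coeffEmb Qb (qExpand ℚ d jq) = coeffMap A.subtype (jqNModC ↥A d)
    rw [coeffMap_jqNModC, Fermat.Agent.S18.H602.coeffEmb_qExpand_jq]
    rfl

theorem Red.jd (d : ℕ) [NeZero d] (hd : d ∣ M) :
    Red M A E (jd M d hd) (qExpand (kA A) d (jqModC (kA A))) := by
  have h := Red.ofInt (M := M) (A := A) (E := E) ⟨jqNModC ↥A d, jqNModC_mem_intE d hd⟩
  have h1 : H216.toOm M A E ⟨jqNModC ↥A d, jqNModC_mem_intE d hd⟩ = Mod.jd M d hd := by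
    apply Subtype.ext
    rw [coe_toOm]
    show coeffMap A.subtype (jqNModC ↥A d) = coeffEmb Qb (qExpand ℚ d jq)
    rw [coeffMap_jqNModC, Fermat.Agent.S18.H602.coeffEmb_qExpand_jq]
    rfl
  have h2 : redE M A E ⟨jqNModC ↥A d, jqNModC_mem_intE d hd⟩ =
      qExpand (kA A) d (jqModC (kA A)) := by
    show coeffMap (residue ↥A) (jqNModC ↥A d) = _
    rw [coeffMap_jqNModC]
    rfl
  rw [h1, h2] at h
  exact h

/-- **Surjectivity of the reduction** onto `κ_E(j̄(q^d) : d ∣ M)`. -/
theorem exists_red_of_mem_closure {c : LaurentSeries (kA A)}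
    (hc : c ∈ Subfield.closure (H759.constk A E ∪ divisorExpansionsC (kA A) M)) :
    ∃ f, Red M A E f c := by
  induction hc using Subfield.closure_induction with
  | mem c hc =>
    rcases hc with ⟨a, haE, rfl⟩ | ⟨d, hd, hdM, rfl⟩
    · exact ⟨_, Red.const a.2 haE⟩
    · haveI := hd
      exact ⟨_, Red.jd d hdM⟩
  | one => exact ⟨1, Red.one⟩
  | add x y _ _ hx hy =>
    obtain ⟨f, hf⟩ := hx
    obtain ⟨g, hg⟩ := hy
    exact ⟨f + g, hf.add hg⟩
  | neg x _ hx =>
    obtain ⟨f, hf⟩ := hx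
    exact ⟨-f, hf.neg⟩
  | inv x _ hx =>
    obtain ⟨f, hf⟩ := hx
    by_cases h0 : x = 0
    · subst h0
      exact ⟨0, by rw [inv_zero]; exact Red.zero⟩
    · exact ⟨f⁻¹, hf.inv h0⟩
  | mul x y _ _ hx hy =>
    obtain ⟨f, hf⟩ := hx
    obtain ⟨g, hg⟩ := hy
    exact ⟨f * g, hf.mul hg⟩

/-! ### The kernel of the reduction -/

section Kernel

variable {V : Subring (Om M)} {w x : Om M} {S : Finset (Om M)}

theorem Red.mul_inv_w_mem (G : Alg.GoodModel (Lc M) (Ec M E) (Fc M E) (Rc M A E) V w x S)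
    (hV : (V : Set (Om M)) = VcSet M A E) {f : Om M} (h : Red M A E f 0) : f * w⁻¹ ∈ V := by
  have hVc : V = Vc M A E := SetLike.coe_injective hV
  by_cases hf0 : f = 0
  · rw [hf0, zero_mul]
    exact zero_mem V
  · refine G.V_gen f (hVc ▸ h.mem_Vc) ?_
    intro hinv
    obtain ⟨d, hd⟩ := exists_red_of_mem_Vc (hVc ▸ hinv : f⁻¹ ∈ Vc M A E)
    have h1 := h.mul hd
    rw [mul_inv_cancel₀ hf0, zero_mul] at h1
    exact one_ne_zero (h1.unique Red.one).symm

theorem Red.unif (G : Alg.GoodModel (Lc M) (Ec M E) (Fc M E) (Rc M A E) V w x S) :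
    Red M A E w 0 := by
  obtain ⟨a, haA, haE, rfl⟩ := (mem_Rc_iff M A E).mp G.w_mem
  have h := Red.const (M := M) haA haE
  have hres : residue A ⟨a, haA⟩ = 0 := by
    rw [residue_eq_zero_iff, mem_maximalIdeal, mem_nonunits_iff]
    intro hu
    apply G.w_inv_not_mem
    have ha0 : a ≠ 0 := by
      rintro rfl
      exact G.w_ne_zero (map_zero _)
    have hinvA : a⁻¹ ∈ A := by
      obtain ⟨u, hu'⟩ := hu
      have h1 : ((↑u⁻¹ : A) : Qb) = a⁻¹ := by
        have h2 : ((↑u : A) : Qb) * ((↑u⁻¹ : A) : Qb) = 1 := by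
          rw [← A.coe_mul, Units.mul_inv, A.coe_one]
        rw [hu'] at h2
        exact eq_inv_of_mul_eq_one_right h2
      rw [← h1]
      exact (↑u⁻¹ : A).2
    rw [← map_inv₀]
    exact (mem_Rc_iff M A E).mpr ⟨a⁻¹, hinvA, inv_mem haE, rfl⟩
  rw [hres, map_zero] at h
  exact h

theorem Red.of_sub_mul_inv_w_mem (G : Alg.GoodModel (Lc M) (Ec M E) (Fc M E) (Rc M A E) V w x S)
    (hV : (V : Set (Om M)) = VcSet M A E) {f b : Om M} {c : LaurentSeries (kA A)}
    (h : Red M A E f c) (hb : (f - b) * w⁻¹ ∈ V) : Red M A E b c := by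
  have hVc : V = Vc M A E := SetLike.coe_injective hV
  obtain ⟨d, hd⟩ := exists_red_of_mem_Vc (hVc ▸ hb : (f - b) * w⁻¹ ∈ Vc M A E)
  have h1 := hd.mul (Red.unif G)
  rw [mul_zero, mul_assoc, inv_mul_cancel₀ G.w_ne_zero, mul_one] at h1
  have h2 := h.sub h1
  rw [sub_sub_cancel, sub_zero] at h2
  exact h2

end Kernel


/-! ### Lifting the integrality equation -/

section Graph

variable (M A E) in
/-- generators of the graph of the reduction on `R[y]` -/
def graphGens (y : Om M) (s : LaurentSeries (kA A)) : Set (Om M × LaurentSeries (kA A)) :=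
  {p | ∃ a : A, (a : Qb) ∈ E ∧ p = (algebraMap Qb (Om M) (a : Qb),
    algebraMap (kA A) (LaurentSeries (kA A)) (residue A a))} ∪ {(y, s)}

variable (M A E) in
/-- the graph of the reduction on `R[y]` -/
def graphRing (y : Om M) (s : LaurentSeries (kA A)) : Subring (Om M × LaurentSeries (kA A)) :=
  Subring.closure (graphGens M A E y s)

variable {y : Om M} {s : LaurentSeries (kA A)}

theorem graphRing_le_redRing (hys : Red M A E y s) : graphRing M A E y s ≤ redRing M A E := by
  rw [graphRing, Subring.closure_le]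
  rintro p (⟨a, haE, rfl⟩ | hp)
  · exact Red.const a.2 haE
  · rw [Set.mem_singleton_iff] at hp
    subst hp
    exact hys

theorem fst_mem_polyRing {p : Om M × LaurentSeries (kA A)} (hp : p ∈ graphRing M A E y s) :
    p.1 ∈ Alg.polyRing (Rc M A E) y := by
  have hle : graphRing M A E y s ≤
      (Alg.polyRing (Rc M A E) y).comap (RingHom.fst (Om M) (LaurentSeries (kA A))) := by
    rw [graphRing, Subring.closure_le]
    rintro q (⟨a, haE, rfl⟩ | hq)
    · exact Subring.subset_closure (Or.inl ((mem_Rc_iff M A E).mpr ⟨a, a.2, haE, rfl⟩))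
    · rw [Set.mem_singleton_iff] at hq
      subst hq
      exact Subring.subset_closure (Or.inr rfl)
  exact hle hp

theorem snd_mem_closure {p : Om M × LaurentSeries (kA A)} (hp : p ∈ graphRing M A E y s) :
    p.2 ∈ Subring.closure (H759.constk A E ∪ {s}) := by
  have hle : graphRing M A E y s ≤
      (Subring.closure (H759.constk A E ∪ {s})).comap
        (RingHom.snd (Om M) (LaurentSeries (kA A))) := by
    rw [graphRing, Subring.closure_le]
    rintro q (⟨a, haE, rfl⟩ | hq)
    · exact Subring.subset_closure (Or.inl ⟨a, haE, rfl⟩)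
    · rw [Set.mem_singleton_iff] at hq
      subst hq
      exact Subring.subset_closure (Or.inr rfl)
  exact hle hp

theorem exists_mem_graphRing {c : LaurentSeries (kA A)}
    (hc : c ∈ Subring.closure (H759.constk A E ∪ {s})) :
    ∃ p ∈ graphRing M A E y s, p.2 = c := by
  induction hc using Subring.closure_induction with
  | mem c hc =>
    rcases hc with ⟨a, haE, rfl⟩ | hc
    · exact ⟨_, Subring.subset_closure (Or.inl ⟨a, haE, rfl⟩), rfl⟩
    · rw [Set.mem_singleton_iff] at hc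
      subst hc
      exact ⟨(y, c), Subring.subset_closure (Or.inr rfl), rfl⟩
  | zero => exact ⟨0, zero_mem _, rfl⟩
  | one => exact ⟨1, one_mem _, rfl⟩
  | add a b _ _ ha hb =>
    obtain ⟨p, hp, rfl⟩ := ha
    obtain ⟨q, hq, rfl⟩ := hb
    exact ⟨p + q, add_mem hp hq, rfl⟩
  | neg a _ ha =>
    obtain ⟨p, hp, rfl⟩ := ha
    exact ⟨-p, neg_mem hp, rfl⟩
  | mul a b _ _ ha hb =>
    obtain ⟨p, hp, rfl⟩ := ha
    obtain ⟨q, hq, rfl⟩ := hb
    exact ⟨p * q, mul_mem hp hq, rfl⟩

/-- **Lifting the integrality equation.** -/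
theorem exists_monic_lift (hys : Red M A E y s) {f : Om M} {c : LaurentSeries (kA A)}
    (hfc : Red M A E f c) (hint : IsIntegral (Subring.closure (H759.constk A E ∪ {s})) c) :
    ∃ P : Polynomial (Om M), P.Monic ∧ (∀ i, P.coeff i ∈ Alg.polyRing (Rc M A E) y) ∧
      Red M A E (P.eval f) 0 := by
  obtain ⟨Pb, hPb, hroot⟩ := hint
  -- the projection of the graph onto the base ring
  let φ : ↥(graphRing M A E y s) →+* ↥(Subring.closure (H759.constk A E ∪ {s})) :=
    ((RingHom.snd (Om M) (LaurentSeries (kA A))).comp (graphRing M A E y s).subtype).codRestrict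
      _ (fun p => snd_mem_closure p.2)
  have hφ : Function.Surjective φ := by
    rintro ⟨c, hc⟩
    obtain ⟨p, hp, rfl⟩ := exists_mem_graphRing (M := M) (y := y) hc
    exact ⟨⟨p, hp⟩, rfl⟩
  have hlift : Pb ∈ Polynomial.lifts φ := by
    rw [Polynomial.lifts_iff_coeff_lifts]
    intro n
    exact hφ _
  obtain ⟨Q, hQ, -, hQm⟩ := Polynomial.lifts_and_natDegree_eq_and_monic hlift hPb
  let ι : ↥(graphRing M A E y s) →+* ↥(redRing M A E) :=
    Subring.inclusion (graphRing_le_redRing hys)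
  let fstR : ↥(redRing M A E) →+* Om M :=
    (RingHom.fst (Om M) (LaurentSeries (kA A))).comp (redRing M A E).subtype
  let sndR : ↥(redRing M A E) →+* LaurentSeries (kA A) :=
    (RingHom.snd (Om M) (LaurentSeries (kA A))).comp (redRing M A E).subtype
  let pt : ↥(redRing M A E) := ⟨(f, c), hfc⟩
  let z : ↥(redRing M A E) := (Q.map ι).eval pt
  refine ⟨Q.map (fstR.comp ι), hQm.map _, fun i => ?_, ?_⟩
  · rw [Polynomial.coeff_map]
    exact fst_mem_polyRing (Q.coeff i).2
  · have hz : Red M A E z.1.1 z.1.2 := z.2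
    have h1 : z.1.1 = (Q.map (fstR.comp ι)).eval f := by
      show fstR ((Q.map ι).eval pt) = _
      rw [← Polynomial.eval₂_at_apply, ← Polynomial.eval_map, Polynomial.map_map]
      rfl
    have h2 : z.1.2 = 0 := by
      show sndR ((Q.map ι).eval pt) = _
      rw [← Polynomial.eval₂_at_apply, ← Polynomial.eval_map, Polynomial.map_map]
      have h3 : sndR.comp ι = (Subring.closure (H759.constk A E ∪ {s})).subtype.comp φ := rfl
      rw [h3, ← Polynomial.map_map, hQ, Polynomial.eval_map]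
      exact hroot
    rw [h1, h2] at hz
    exact hz

end Graph

/-! ### Integrality over `A[y]` and INT-Q -/

section IntQ

variable {y : Om M}

theorem polyRing_le_range (Y : ↥(intE M A E)) (hY : H216.toOm M A E Y = y) :
    Alg.polyRing (Rc M A E) y ≤ (H216.toOm M A E).range := by
  rw [Alg.polyRing, Subring.closure_le]
  rintro r (hr | hr)
  · obtain ⟨a, haA, haE, rfl⟩ := (mem_Rc_iff M A E).mp hr
    exact ⟨cInt M A E haA haE, toOm_cInt M A E haA haE⟩
  · rw [Set.mem_singleton_iff] at hr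
    subst hr
    exact ⟨Y, hY⟩

theorem polyRing_le_comap (y : Om M) :
    Alg.polyRing (Rc M A E) y ≤
      (Subring.closure (H759.constAll A ∪ {(y : LaurentSeries Qb)})).comap (omVal M) := by
  rw [Alg.polyRing, Subring.closure_le]
  rintro r (hr | hr)
  · obtain ⟨a, haA, haE, rfl⟩ := (mem_Rc_iff M A E).mp hr
    exact Subring.subset_closure (Or.inl ⟨⟨a, haA⟩, rfl⟩)
  · rw [Set.mem_singleton_iff] at hr
    subst hr
    exact Subring.subset_closure (Or.inr rfl)

/-- integrality over `R[y]` inside `F_M` gives integrality over `A[y]` inside `ℚ̄((q))` -/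
theorem isIntegral_coe {b : Om M} (hb : IsIntegral (Alg.polyRing (Rc M A E) y) b) :
    IsIntegral (Subring.closure (H759.constAll A ∪ {(y : LaurentSeries Qb)}))
      (b : LaurentSeries Qb) := by
  obtain ⟨p, hp, hpb⟩ := hb
  let θ : ↥(Alg.polyRing (Rc M A E) y) →+*
      ↥(Subring.closure (H759.constAll A ∪ {(y : LaurentSeries Qb)})) :=
    ((omVal M).comp (Alg.polyRing (Rc M A E) y).subtype).codRestrict _
      (fun r => polyRing_le_comap (A := A) (E := E) y r.2)
  refine ⟨p.map θ, hp.map θ, ?_⟩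
  rw [Polynomial.eval₂_map]
  have h1 : (algebraMap ↥(Subring.closure (H759.constAll A ∪ {(y : LaurentSeries Qb)}))
      (LaurentSeries Qb)).comp θ =
      (omVal M).comp (algebraMap ↥(Alg.polyRing (Rc M A E) y) (Om M)) := rfl
  rw [h1, ← omVal_apply, ← Polynomial.hom_eval₂, hpb, map_zero]

/-- the integrality equation of `b` over `R[y]`, with coefficients integral `q`-series -/
theorem exists_intQ_poly (Y : ↥(intE M A E)) (hY : H216.toOm M A E Y = y) {b : Om M}
    (hb : IsIntegral (Alg.polyRing (Rc M A E) y) b) :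
    ∃ q : Polynomial (LaurentSeries ↥A), q.Monic ∧
      (∀ i, coeffMap A.subtype (q.coeff i) ∈ modularFunctionFieldBar M) ∧
      q.eval₂ (coeffMap A.subtype) (b : LaurentSeries Qb) = 0 := by
  obtain ⟨p, hp, hpb⟩ := hb
  have hlift : p.map (Alg.polyRing (Rc M A E) y).subtype ∈ Polynomial.lifts (H216.toOm M A E) := by
    rw [Polynomial.lifts_iff_coeff_lifts]
    intro n
    rw [Polynomial.coeff_map]
    exact polyRing_le_range Y hY (p.coeff n).2
  obtain ⟨Q, hQ, -, hQm⟩ := Polynomial.lifts_and_natDegree_eq_and_monic hlift (hp.map _)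
  refine ⟨Q.map (intE M A E).subtype, hQm.map _, fun i => ?_, ?_⟩
  · rw [Polynomial.coeff_map]
    exact inclA_mem_bar M A E (Q.coeff i)
  · rw [Polynomial.eval₂_map]
    have h1 : (coeffMap A.subtype).comp (intE M A E).subtype =
        (omVal M).comp (H216.toOm M A E) := rfl
    rw [h1, ← omVal_apply, ← Polynomial.hom_eval₂, ← Polynomial.eval_map, hQ,
      Polynomial.eval_map]
    have h2 : (Alg.polyRing (Rc M A E) y).subtype =
        algebraMap ↥(Alg.polyRing (Rc M A E) y) (Om M) := rfl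
    rw [h2, hpb, map_zero]

end IntQ

/-! ### The core -/

/-- (D2), verbatim copy of `Fermat.Agent.S37.Core.NormalAbsStatement` -/
def NormalAbs : Prop :=
  ∀ (Ω : Type) [Field Ω] (Lc Ec Fc : Subfield Ω) (R V : Subring Ω) (w x : Ω) (S : Finset Ω),
    Alg.GoodModel Lc Ec Fc R V w x S →
    ∀ f ∈ V, ∀ P : Polynomial Ω, P.Monic → (∀ i, P.coeff i ∈ Alg.polyRing R x) →
      P.eval f * w⁻¹ ∈ V →
      ∃ b ∈ Alg.chart Fc R x, (f - b) * w⁻¹ ∈ V

/-- **Core of leaf D3**: (H3) at the level of a number field `E` which carries a good model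
with coordinate `y = toOm Y`. -/
theorem lift_core [NeZero M] {ℓ : ℕ} (hℓ : ℓ ≠ 0) (hA : A.LiesOverPrime ℓ)
    {V : Subring (Om M)} {w y : Om M} {S : Finset (Om M)}
    (G : Alg.GoodModel (Lc M) (Ec M E) (Fc M E) (Rc M A E) V w y S)
    (hV : (V : Set (Om M)) = VcSet M A E) (hnorm : NormalAbs)
    (Y : ↥(intE M A E)) (hY : H216.toOm M A E Y = y) :
    H759.LiftAtLevel A M E (y : LaurentSeries Qb) (redE M A E Y) := by
  intro c hc hint
  have hVc : V = Vc M A E := SetLike.coe_injective hV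
  obtain ⟨f, hfc⟩ := exists_red_of_mem_closure (M := M) hc
  have hys : Red M A E y (redE M A E Y) := hY ▸ Red.ofInt Y
  obtain ⟨P, hP, hcoef, hred⟩ := exists_monic_lift hys hfc hint
  have hPV : P.eval f * w⁻¹ ∈ V := Red.mul_inv_w_mem G hV hred
  obtain ⟨b, ⟨-, hbint⟩, hfb⟩ := hnorm (Om M) (Lc M) (Ec M E) (Fc M E) (Rc M A E) V w y S G f
    (hVc ▸ hfc.mem_Vc) P hP hcoef hPV
  have hbc : Red M A E b c := Red.of_sub_mul_inv_w_mem G hV hfc hfb
  obtain ⟨q, hq, hqcoef, hqb⟩ := exists_intQ_poly Y hY hbint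
  obtain ⟨U, hU⟩ := Fermat.Agent.S37.H280.IntQ.intQ A hℓ hA M (b : LaurentSeries Qb) b.2 q hq
    hqcoef hqb
  refine ⟨U, ?_, ?_, ?_⟩
  · rw [hU]
    exact b.2
  · rw [hU]
    exact isIntegral_coe hbint
  · obtain ⟨U₁, U₂, hne, hf, hc'⟩ := hbc
    have h1 : (b : LaurentSeries Qb) * inclA A (U₂ : LaurentSeries ↥A) =
        inclA A (U₁ : LaurentSeries ↥A) := congrArg Subtype.val hf
    have h2 : U * (U₂ : LaurentSeries ↥A) = (U₁ : LaurentSeries ↥A) := by
      apply inclA_injective A
      rw [map_mul]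
      show coeffMap A.subtype U * _ = _
      rw [hU]
      exact h1
    have h3 : coeffMap (residue ↥A) U * redE M A E U₂ = redE M A E U₁ := by
      show coeffMap (residue ↥A) U * coeffMap (residue ↥A) (U₂ : LaurentSeries ↥A) =
        coeffMap (residue ↥A) (U₁ : LaurentSeries ↥A)
      rw [← map_mul, h2]
    exact mul_right_cancel₀ hne (h3.trans hc'.symm)

/-- `LiftAtLevel` is antitone in the number field. -/
theorem liftAtLevel_anti {E E' : IntermediateField ℚ Qb} (h : E ≤ E') (N : ℕ)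
    (t : LaurentSeries Qb) (s : LaurentSeries (kA A))
    (hL : H759.LiftAtLevel A N E' t s) : H759.LiftAtLevel A N E t s := by
  intro c hc hint
  have hk : H759.constk A E ⊆ H759.constk A E' := by
    rintro c ⟨a, ha, rfl⟩
    exact ⟨a, h ha, rfl⟩
  exact hL c (Subfield.closure_mono (Set.union_subset_union_left _ hk) hc)
    (H759.isIntegral_subring_mono
      (Subring.closure_mono (Set.union_subset_union_left _ hk)) hint)

end Fermat.Agent.S37.H697.Lift
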