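import Fermat.Agent.S37.Core.Leaves
import Fermat.Agent.S37.H697.LiftCore

/-!
# S37 / board v3, LEAF D3 (helper697): `Fermat.Agent.S37.Core.LiftLeaf`

`liftLeaf : Core.LiftLeaf` — (H3) at every number-field level, on both charts, from the good
models of row S18 (`Mod.GoodModelStatement`) and the abstract normality statement (D2).

Proof: enlarge `E` to a member `E'` of the family (`LiftAtLevel` is antitone in `E`), apply
`Lift.lift_core` to the good model with coordinate `x` (integral series `X`) and to the good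
model with coordinate `x⁻¹` (`S18.H425.goodModel_inv`, integral series `X⁻¹ ∈ ℤ((q))`).
-/

set_option autoImplicit false
set_option synthInstance.maxHeartbeats 400000
set_option maxHeartbeats 1600000
set_option linter.unusedSectionVars false
set_option linter.unusedVariables false
set_option linter.style.haveILetI false

noncomputable section

namespace Fermat.Agent.S37.H697

open ModularCurve AlgebraicCurve HahnSeries IsLocalRing Polynomial
open Fermat.Agent.S18 Fermat.Agent.S18.Mod Fermat.Agent.S18.Mod.H216 Fermat.Agent.S37.Red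
open Fermat.Agent.S37.H697.Lift

/-- a number field is generated (as a `ℚ`-vector space) by finitely many elements -/
theorem exists_finset_le (E : IntermediateField ℚ Qb) [FiniteDimensional ℚ E] :
    ∃ T : Finset Qb, ∀ E' : IntermediateField ℚ Qb, (∀ a ∈ T, a ∈ E') → E ≤ E' := by
  classical
  obtain ⟨S, hS⟩ := (Module.finite_def.mp (inferInstance : Module.Finite ℚ E))
  refine ⟨S.image (fun e : E => (e : Qb)), fun E' hT e he => ?_⟩
  have key : ∀ z : E, z ∈ Submodule.span ℚ (S : Set E) → (z : Qb) ∈ E' := by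
    intro z hz
    induction hz using Submodule.span_induction with
    | mem z hz => exact hT _ (Finset.mem_image.mpr ⟨z, hz, rfl⟩)
    | zero => exact zero_mem E'
    | add a b _ _ ha hb => exact add_mem ha hb
    | smul r a _ ha =>
      have h1 : ((r • a : E) : Qb) = algebraMap ℚ Qb r * (a : Qb) := by
        rw [Algebra.smul_def]
        rfl
      rw [h1]
      exact mul_mem (E'.algebraMap_mem r) ha
  exact key ⟨e, he⟩ (hS ▸ Submodule.mem_top)

/-- a Laurent series `q⁻¹ + …` over `ℤ` is invertible -/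
theorem exists_inv_series (X : LaurentSeries ℤ) (h1 : X.coeff (-1) = 1)
    (h2 : ∀ k : ℤ, k < -1 → X.coeff k = 0) : ∃ Xi : LaurentSeries ℤ, X * Xi = 1 := by
  have hX0 : X ≠ 0 := by
    rintro rfl
    simp at h1
  have hord : X.order = -1 := by
    apply le_antisymm
    · exact HahnSeries.order_le_of_coeff_ne_zero (by rw [h1]; exact one_ne_zero)
    · by_contra hlt
      exact (HahnSeries.coeff_order_eq_zero.not.mpr hX0) (h2 _ (not_le.mp hlt))
  have hu : IsUnit X := by
    rw [HahnSeries.isUnit_iff, HahnSeries.leadingCoeff_eq, hord, h1]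
    exact isUnit_one
  obtain ⟨u, rfl⟩ := hu
  exact ⟨↑u⁻¹, Units.mul_inv u⟩

theorem coeffMap_intCast_comp {R S : Type*} [CommRing R] [CommRing S] (f : R →+* S)
    (X : LaurentSeries ℤ) :
    coeffMap f (coeffMap (Int.castRingHom R) X) = coeffMap (Int.castRingHom S) X := by
  rw [coeffMap_coeffMap]
  exact coeffMap_congr (RingHom.ext_int _ _) X

/-- an integral series over `ℤ` representing an element of `Fc M E` lies in `intE` -/
theorem intCast_mem_intE (M : ℕ) (A : ValuationSubring Qb) (E : IntermediateField ℚ Qb)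
    (X : LaurentSeries ℤ) (f : Om M) (hf : f ∈ Fc M E)
    (hfX : (f : LaurentSeries Qb) = coeffMap (Int.castRingHom Qb) X) :
    coeffMap (Int.castRingHom ↥A) X ∈ intE M A E := by
  rw [mem_intE]
  refine ⟨fun k => ?_, f, hf, ?_⟩
  · rw [coeffMap_coeff]
    simp only [eq_intCast, SubringClass.coe_intCast]
    exact intCast_mem E _
  · rw [hfX, coeffMap_intCast_comp]

/-- **LEAF D3.** -/
theorem liftLeaf : Fermat.Agent.S37.Core.LiftLeaf := by
  intro M ℓ _ hℓ hℓM A hA x S hx X hX hmod hnorm E
  classical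
  obtain ⟨𝓕, -, h𝓕, hT⟩ := hmod x S hx
  haveI : FiniteDimensional ℚ E.1 := E.2
  obtain ⟨T, hTE⟩ := exists_finset_le E.1
  obtain ⟨E', V, w, -, hTE', hV, hmem⟩ := hT T
  have hEE' : E.1 ≤ E' := hTE E' hTE'
  have G : Alg.GoodModel (Lc M) (Ec M E') (Fc M E') (Rc M A E') V w x S := h𝓕.good _ hmem
  -- the coordinate as an integral series
  have hXint : coeffMap (Int.castRingHom ↥A) X ∈ intE M A E' :=
    intCast_mem_intE M A E' X x G.x_mem hX.coe_eq
  have hY : H216.toOm M A E' ⟨coeffMap (Int.castRingHom ↥A) X, hXint⟩ = x := by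
    apply Subtype.ext
    rw [coe_toOm, hX.coe_eq]
    exact coeffMap_intCast_comp A.subtype X
  have hredY : redE M A E' ⟨coeffMap (Int.castRingHom ↥A) X, hXint⟩ = Core.redX A X :=
    coeffMap_intCast_comp (residue ↥A) X
  -- the inverse coordinate as an integral series
  obtain ⟨Xi, hXi⟩ := exists_inv_series X hX.coeff_neg_one hX.coeff_lt
  have hxi : ((x⁻¹ : Om M) : LaurentSeries Qb) = coeffMap (Int.castRingHom Qb) Xi := by
    have h1 : (x : LaurentSeries Qb) * coeffMap (Int.castRingHom Qb) Xi = 1 := by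
      rw [hX.coe_eq, ← map_mul, hXi, map_one]
    have h2 : ((x⁻¹ : Om M) : LaurentSeries Qb) = ((x : Om M) : LaurentSeries Qb)⁻¹ := rfl
    rw [h2]
    exact (eq_inv_of_mul_eq_one_right h1).symm
  have hXiint : coeffMap (Int.castRingHom ↥A) Xi ∈ intE M A E' :=
    intCast_mem_intE M A E' Xi x⁻¹ (inv_mem G.x_mem) hxi
  have hYi : H216.toOm M A E' ⟨coeffMap (Int.castRingHom ↥A) Xi, hXiint⟩ = x⁻¹ := by
    apply Subtype.ext
    rw [coe_toOm, hxi]
    exact coeffMap_intCast_comp A.subtype Xi
  have hredYi : redE M A E' ⟨coeffMap (Int.castRingHom ↥A) Xi, hXiint⟩ = (Core.redX A X)⁻¹ := by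
    have h1 : Core.redX A X * coeffMap (Int.castRingHom (ResidueField ↥A)) Xi = 1 := by
      show coeffMap (Int.castRingHom (ResidueField ↥A)) X * _ = 1
      rw [← map_mul, hXi, map_one]
    have h2 : redE M A E' ⟨coeffMap (Int.castRingHom ↥A) Xi, hXiint⟩ =
        coeffMap (Int.castRingHom (ResidueField ↥A)) Xi :=
      coeffMap_intCast_comp (residue ↥A) Xi
    rw [h2]
    exact eq_inv_of_mul_eq_one_right h1
  constructor
  · apply liftAtLevel_anti hEE'
    have h := lift_core hℓ.ne_zero hA G hV hnorm ⟨coeffMap (Int.castRingHom ↥A) X, hXint⟩ hY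
    rw [hredY] at h
    exact h
  · apply liftAtLevel_anti hEE'
    have Gi := Fermat.Agent.S18.H425.goodModel_inv G
    have h := lift_core hℓ.ne_zero hA Gi hV hnorm ⟨coeffMap (Int.castRingHom ↥A) Xi, hXiint⟩ hYi
    rw [hredYi] at h
    exact h

end Fermat.Agent.S37.H697
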